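/-
Cluster G (S36), block W-P (existence of the horizontal valuations `w_P`), seat CIRCLE (helper51).

**The circle valuation by domination** (abstract, Mathlib only).

`F` a field, `O` a subring of `F` (the Gauss valuation ring of the good reduction), `B ≤ O` a
subring (the integral functions without poles in the residue disc of `P`), `ϖ, t ∈ B`, `ϖ ≠ 0`,
`t` a unit of `O`, and `ev : B →+* k` (evaluation of the reduction at `P`) with `ev ϖ = 0`,
`ev t = 0`.  Assume `B` is closed under division by `ϖ` inside `O` (`DIV`).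

* `circle_homog`  : `Σ_{i ≤ n} b_i t^i ϖ^(n-i) = 0`, `b_i ∈ B`  ⟹  `ev (b_i) = 0` for all `i ≤ n`.
* `circle_ker_le` : `G ∈ B[X]`, `G(t/ϖ) = 0`  ⟹  `ev G = 0` in `k[X]`
                    (so `B[t/ϖ] → k[X]`, `b ↦ ev b`, `t/ϖ ↦ X` is a well defined ring homomorphism).
* `exists_circle` : there is a valuation ring `V` of `F` with `B ⊆ V`, `t/ϖ ∈ V`, such that for all
                    `G ∈ B[X]`: `G(t/ϖ)` is a non-unit of `V` iff `ev G = 0`.
* `exists_circle'`: the same with the corollaries: `t/ϖ` is a unit of `V`, `b ∈ B` is a non-unit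
                    of `V` iff `ev b = 0`.
-/
import Mathlib
import Fermat.Agent.MUL.Orig.S27.Lift.ValAdapt

set_option autoImplicit false

noncomputable section

namespace Fermat.Agent.HPVal

open Polynomial

variable {F : Type*} [Field F] {k : Type*} [CommRing k]

/-- the hypotheses of the circle lemma. -/
structure CircleData (O B : Subring F) (ϖ t : F) (ev : B →+* k) : Prop where
  le : B ≤ O
  ϖ_ne : ϖ ≠ 0
  ϖ_mem : ϖ ∈ B
  t_ne : t ≠ 0
  t_mem : t ∈ B
  t_inv : t⁻¹ ∈ O
  div : ∀ b ∈ B, b * ϖ⁻¹ ∈ O → b * ϖ⁻¹ ∈ B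
  ev_ϖ : ∀ h : ϖ ∈ B, ev ⟨ϖ, h⟩ = 0
  ev_t : ∀ h : t ∈ B, ev ⟨t, h⟩ = 0

namespace CircleData

variable {O B : Subring F} {ϖ t : F} {ev : B →+* k}

/-- the homogeneous form of the well-definedness. -/
theorem homog (D : CircleData O B ϖ t ev) (n : ℕ) (b : ℕ → B)
    (h : ∑ i ∈ Finset.range (n + 1), (b i : F) * t ^ i * ϖ ^ (n - i) = 0) :
    ∀ i, i ≤ n → ev (b i) = 0 := by
  induction n generalizing b with
  | zero =>
    intro i hi
    have hi0 : i = 0 := Nat.le_zero.mp hi
    subst hi0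
    have h0 : (b 0 : F) = 0 := by simpa using h
    have : b 0 = 0 := Subtype.ext h0
    rw [this, map_zero]
  | succ n ih =>
    -- the lower part of the sum
    set S : F := ∑ i ∈ Finset.range (n + 1), (b i : F) * t ^ i * ϖ ^ (n - i) with hS
    have hSB : S ∈ B := by
      rw [hS]
      refine Subring.sum_mem _ fun i _ => ?_
      exact mul_mem (mul_mem (b i).2 (pow_mem D.t_mem _)) (pow_mem D.ϖ_mem _)
    have hsplit : ∑ i ∈ Finset.range (n + 1), (b i : F) * t ^ i * ϖ ^ (n + 1 - i) = ϖ * S := by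
      rw [hS, Finset.mul_sum]
      refine Finset.sum_congr rfl fun i hi => ?_
      have hin : i ≤ n := Nat.lt_succ_iff.mp (Finset.mem_range.mp hi)
      rw [show n + 1 - i = (n - i) + 1 by omega, pow_succ]
      ring
    have hrel : ϖ * S + (b (n + 1) : F) * t ^ (n + 1) = 0 := by
      rw [Finset.sum_range_succ, hsplit] at h
      simpa using h
    -- `b_{n+1} / ϖ ∈ O`
    have hquot : (b (n + 1) : F) * ϖ⁻¹ = -(S * (t⁻¹) ^ (n + 1)) := by
      have h1 : (b (n + 1) : F) * t ^ (n + 1) = -(ϖ * S) := by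
        linear_combination hrel
      have ht : t ^ (n + 1) ≠ 0 := pow_ne_zero _ D.t_ne
      have h2 : (b (n + 1) : F) = -(ϖ * S) * (t ^ (n + 1))⁻¹ := by
        rw [← h1, mul_assoc, mul_inv_cancel₀ ht, mul_one]
      have hϖ := D.ϖ_ne
      rw [h2, inv_pow]
      field_simp
    have hquotO : (b (n + 1) : F) * ϖ⁻¹ ∈ O := by
      rw [hquot]
      exact neg_mem (mul_mem (D.le hSB) (pow_mem D.t_inv _))
    have hb'B : (b (n + 1) : F) * ϖ⁻¹ ∈ B := D.div _ (b (n + 1)).2 hquotO
    set b' : B := ⟨(b (n + 1) : F) * ϖ⁻¹, hb'B⟩ with hb'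
    have hb'ϖ : (b (n + 1) : F) = (b' : F) * ϖ := by
      rw [hb']
      show (b (n + 1) : F) = (b (n + 1) : F) * ϖ⁻¹ * ϖ
      rw [mul_assoc, inv_mul_cancel₀ D.ϖ_ne, mul_one]
    -- the new relation of degree `n`
    let c : ℕ → B := fun i => if i = n then b n + b' * ⟨t, D.t_mem⟩ else b i
    have hc : ∑ i ∈ Finset.range (n + 1), (c i : F) * t ^ i * ϖ ^ (n - i) = 0 := by
      have h1 : ∑ i ∈ Finset.range (n + 1), (c i : F) * t ^ i * ϖ ^ (n - i) =
          S + (b' : F) * t ^ (n + 1) := by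
        rw [hS, Finset.sum_range_succ, Finset.sum_range_succ]
        have h2 : ∑ i ∈ Finset.range n, (c i : F) * t ^ i * ϖ ^ (n - i) =
            ∑ i ∈ Finset.range n, (b i : F) * t ^ i * ϖ ^ (n - i) := by
          refine Finset.sum_congr rfl fun i hi => ?_
          have hin : i ≠ n := (Finset.mem_range.mp hi).ne
          simp only [c, if_neg hin]
        rw [h2]
        have h3 : (c n : F) = (b n : F) + (b' : F) * t := by
          simp only [c, if_pos rfl]
          rfl
        rw [h3, Nat.sub_self, pow_zero]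
        ring
      rw [h1]
      have h4 : ϖ * (S + (b' : F) * t ^ (n + 1)) = 0 := by
        rw [mul_add, ← mul_assoc, mul_comm ϖ (b' : F), ← hb'ϖ]
        exact hrel
      rcases mul_eq_zero.mp h4 with h5 | h5
      · exact absurd h5 D.ϖ_ne
      · exact h5
    have hih := ih c hc
    intro i hi
    rcases Nat.lt_or_ge i n with hlt | hge
    · have := hih i hlt.le
      simpa only [c, if_neg hlt.ne] using this
    rcases Nat.eq_or_lt_of_le hge with heq | hgt
    · -- `i = n`
      subst heq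
      have := hih n le_rfl
      simp only [c, if_pos rfl, map_add, map_mul, D.ev_t D.t_mem, mul_zero, add_zero] at this
      exact this
    · -- `i = n + 1`
      have hi' : i = n + 1 := by omega
      subst hi'
      have h6 : b (n + 1) = b' * ⟨ϖ, D.ϖ_mem⟩ := Subtype.ext hb'ϖ
      rw [h6, map_mul, D.ev_ϖ D.ϖ_mem, mul_zero]

/-- the evaluation `B[X] → F`, `X ↦ t / ϖ`. -/
def evalHom (B : Subring F) (ϖ t : F) : (↥B)[X] →+* F :=
  Polynomial.eval₂RingHom B.subtype (t * ϖ⁻¹)

theorem evalHom_C (b : B) : evalHom B ϖ t (C b) = (b : F) := by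
  simp [evalHom]

theorem evalHom_X : evalHom B ϖ t (X : (↥B)[X]) = t * ϖ⁻¹ := by
  simp [evalHom]

/-- **well-definedness**: a polynomial relation `G (t/ϖ) = 0` over `B` reduces to `0`. -/
theorem ker_le (D : CircleData O B ϖ t ev) (G : (↥B)[X]) (hG : evalHom B ϖ t G = 0) :
    G.map ev = 0 := by
  have h1 : ∑ i ∈ Finset.range (G.natDegree + 1),
      ((G.coeff i : B) : F) * t ^ i * ϖ ^ (G.natDegree - i) = 0 := by
    have h2 : evalHom B ϖ t G =
        ∑ i ∈ Finset.range (G.natDegree + 1), ((G.coeff i : B) : F) * (t * ϖ⁻¹) ^ i := by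
      show Polynomial.eval₂ B.subtype (t * ϖ⁻¹) G = _
      rw [Polynomial.eval₂_eq_sum_range]
      rfl
    have h3 : ∑ i ∈ Finset.range (G.natDegree + 1),
        ((G.coeff i : B) : F) * t ^ i * ϖ ^ (G.natDegree - i) =
        ϖ ^ G.natDegree * evalHom B ϖ t G := by
      rw [h2, Finset.mul_sum]
      refine Finset.sum_congr rfl fun i hi => ?_
      have hin : i ≤ G.natDegree := Nat.lt_succ_iff.mp (Finset.mem_range.mp hi)
      have h4 : ϖ ^ G.natDegree = ϖ ^ (G.natDegree - i) * ϖ ^ i := by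
        rw [← pow_add, Nat.sub_add_cancel hin]
      rw [h4, mul_pow, inv_pow]
      have h5 : ϖ ^ i ≠ 0 := pow_ne_zero _ D.ϖ_ne
      field_simp
    rw [h3, hG, mul_zero]
  have h6 := D.homog G.natDegree (fun i => G.coeff i) h1
  ext i
  rw [Polynomial.coeff_map, Polynomial.coeff_zero]
  by_cases hi : i ≤ G.natDegree
  · exact h6 i hi
  · rw [Polynomial.coeff_eq_zero_of_natDegree_lt (not_le.mp hi), map_zero]

/-- **the circle valuation**: a valuation ring `V ⊇ B[t/ϖ]` of `F` in which `G (t/ϖ)`,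
`G ∈ B[X]`, is a non-unit exactly if `G` reduces to `0` in `k[X]`. -/
theorem exists_circle [IsDomain k] (D : CircleData O B ϖ t ev) :
    ∃ V : ValuationSubring F, (∀ b ∈ B, b ∈ V) ∧ t * ϖ⁻¹ ∈ V ∧
      ∀ G : (↥B)[X], (evalHom B ϖ t G ∈ V.nonunits ↔ G.map ev = 0) := by
  classical
  let ψ : (↥B)[X] →+* F := evalHom B ϖ t
  let R : Subring F := ψ.range
  let ψ' : (↥B)[X] →+* R := ψ.rangeRestrict
  have hψ' : Function.Surjective ψ' := ψ.rangeRestrict_surjective
  let χ : (↥B)[X] →+* k[X] := Polynomial.mapRingHom ev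
  have hker : RingHom.ker ψ' ≤ RingHom.ker χ := by
    intro G hG
    rw [RingHom.mem_ker] at hG ⊢
    have hG' : evalHom B ϖ t G = 0 := congrArg Subtype.val hG
    exact D.ker_le G hG'
  have : (RingHom.ker χ).IsPrime := RingHom.ker_isPrime χ
  let 𝔭 : Ideal R := Ideal.map ψ' (RingHom.ker χ)
  have h𝔭 : 𝔭.IsPrime := Ideal.map_isPrime_of_surjective hψ' hker
  have hmem : ∀ G : (↥B)[X], ψ' G ∈ 𝔭 ↔ G.map ev = 0 := by
    intro G
    constructor
    · intro h
      obtain ⟨G', hG', hGG'⟩ := (Ideal.mem_map_iff_of_surjective ψ' hψ').mp h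
      have h1 : G - G' ∈ RingHom.ker χ := hker (by
        rw [RingHom.mem_ker, map_sub, hGG', sub_self])
      have h2 : G ∈ RingHom.ker χ := by
        have := add_mem h1 hG'
        rwa [sub_add_cancel] at this
      exact h2
    · intro h
      exact Ideal.mem_map_of_mem ψ' (show G ∈ RingHom.ker χ from h)
  obtain ⟨V, hRV, hP, hnP⟩ := Fermat.Agent.S27.exists_valuationSubring_of_prime R 𝔭
  refine ⟨V, fun b hb => ?_, ?_, fun G => ?_⟩
  · have : (b : F) ∈ R := ⟨C ⟨b, hb⟩, evalHom_C _⟩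
    exact hRV this
  · have : t * ϖ⁻¹ ∈ R := ⟨X, evalHom_X⟩
    exact hRV this
  · constructor
    · intro h
      by_contra hne
      have h1 : ψ' G ∉ 𝔭 := fun hh => hne ((hmem G).mp hh)
      obtain ⟨h0, hinv⟩ := hnP (ψ' G) h1
      have h2 : ((ψ' G : R) : F) = evalHom B ϖ t G := rfl
      rw [h2] at h0 hinv
      rw [ValuationSubring.mem_nonunits_iff_or] at h
      rcases h with h | h
      · exact h0 h
      · exact h hinv
    · intro h
      have h1 : ψ' G ∈ 𝔭 := (hmem G).mpr h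
      exact hP (ψ' G) h1

/-- **the circle valuation**, with its first consequences: `B ⊆ V`, `t/ϖ` is a unit of `V`,
`b ∈ B` is a non-unit of `V` iff `ev b = 0`, and `G (t/ϖ)` is a unit of `V` as soon as `G` does
not reduce to `0` (the residue of `t/ϖ` is transcendental over `ev B`). -/
theorem exists_circle' [IsDomain k] (D : CircleData O B ϖ t ev) :
    ∃ V : ValuationSubring F, (∀ b ∈ B, b ∈ V) ∧ t * ϖ⁻¹ ∈ V ∧ (t * ϖ⁻¹)⁻¹ ∈ V ∧
      (∀ b : B, (b : F) ∈ V.nonunits ↔ ev b = 0) ∧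
      (∀ G : (↥B)[X], (evalHom B ϖ t G ∈ V.nonunits ↔ G.map ev = 0)) ∧
      (∀ G : (↥B)[X], G.map ev ≠ 0 → evalHom B ϖ t G ∈ V ∧ (evalHom B ϖ t G)⁻¹ ∈ V) := by
  obtain ⟨V, hB, ht, hG⟩ := D.exists_circle
  have hmemV : ∀ G : (↥B)[X], evalHom B ϖ t G ∈ V := by
    intro G
    show Polynomial.eval₂ B.subtype (t * ϖ⁻¹) G ∈ V
    rw [Polynomial.eval₂_eq_sum]
    refine Subring.sum_mem V.toSubring fun i _ => ?_
    exact mul_mem (hB _ (G.coeff i).2) (pow_mem ht _)
  have hunit : ∀ G : (↥B)[X], G.map ev ≠ 0 →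
      evalHom B ϖ t G ∈ V ∧ (evalHom B ϖ t G)⁻¹ ∈ V := by
    intro G hne
    refine ⟨hmemV G, ?_⟩
    by_contra hinv
    have h1 : evalHom B ϖ t G ∈ V.nonunits := by
      rw [ValuationSubring.mem_nonunits_iff_or]
      exact Or.inr hinv
    exact hne ((hG G).mp h1)
  refine ⟨V, hB, ht, ?_, fun b => ?_, hG, hunit⟩
  · have h1 := hunit X (by
      rw [Polynomial.map_X]
      exact Polynomial.X_ne_zero)
    rw [evalHom_X] at h1
    exact h1.2
  · have h1 := hG (C b)
    rw [evalHom_C, Polynomial.map_C] at h1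
    rw [h1]
    exact Polynomial.C_eq_zero

end CircleData

end Fermat.Agent.HPVal
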