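/-
Cluster G (S36), block W-P, seat DISC-TAYLOR part 2 (helper51; sub-architect helper59, route of
helper29): the remaining disc-side inputs of `DiscLatData` (helper29, `DiscLat.lean`) for
`ev := valueAt S.hF Pt`, and the points of the disc (P).

`S : S18Key.RedSetup K F k Fk`, `P` a place of `Fk`, `R_P = discRing S P`.

* `DiscPoint.value_add`, `value_smul`, `value_mul`, `value_const`, `value_t` : the value at `Pt`
  is a ring homomorphism on `R_P`   (`ev_add`, `ev_smul`)
* `DiscPoint.sep`  : `(∀ N, g / t ^ N ∈ R_P) → g = 0`                       (`sep`)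
* `exists_clear_poles` : Riemann: for every `f` and every place `Q₀` there is `h ≠ 0` with
  `h`, `f h` regular outside `Q₀`
* `discRing_frac`  : `F = Frac R_P` as soon as some place does not reduce to `P`  (`frac`)
* `exists_discPoint` : `t ∈ R_P` with `ord_P (red t) = 1` has a (unique, simple) zero on the disc
* `DiscPoint.shift`, `DiscPoint.exists_unique_zero` : **(P)** for `c ∈ m_A` the function `t - c`
  has exactly one zero `x` on the disc, and `(x, t - c)` is again a `DiscPoint`.
-/
import Mathlib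
import Fermat.Agent.MUL.Orig.Lib.RR.Riemann
import Fermat.Agent.MUL.Orig.Lib.BadRed.HPVal.DiscTaylor
import Fermat.Agent.MUL.E.Desc.Kp.ValI

set_option autoImplicit false

noncomputable section

namespace Fermat.Agent.HPVal

open AlgebraicCurve Fermat.Agent.S18Key Fermat.Agent.RR

variable {K F k Fk : Type*} [Field K] [Field F] [Algebra K F] [Field k] [Field Fk] [Algebra k Fk]

variable {S : RedSetup K F k Fk} {P : Place k Fk}

theorem dp_ord_pow (v : Place K F) (f : F) (n : ℕ) : v.ord (f ^ n) = n * v.ord f := by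
  have := v.ord_zpow f (n : ℤ)
  rwa [zpow_natCast] at this

theorem mem_valuationSubring_of_mem_discRing {Pt : Place K F} (hPt : S.r Pt = P) {g : F}
    (hg : g ∈ discRing S P) : g ∈ Pt.toValuationSubring :=
  Fermat.Agent.S24Res.mem_of_ord_nonneg Pt (hg.2 Pt hPt)

namespace DiscPoint

variable {Pt : Place K F} {t : F}

/-- `ev_add`. -/
theorem value_add (D : DiscPoint S P Pt t) {g h : F} (hg : g ∈ discRing S P)
    (hh : h ∈ discRing S P) :
    Fermat.Agent.FF.valueAt S.hF Pt (g + h) =
      Fermat.Agent.FF.valueAt S.hF Pt g + Fermat.Agent.FF.valueAt S.hF Pt h :=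
  Fermat.Agent.FF.valueAt_add S.hF Pt (mem_valuationSubring_of_mem_discRing D.r_Pt hg)
    (mem_valuationSubring_of_mem_discRing D.r_Pt hh)

theorem value_mul (D : DiscPoint S P Pt t) {g h : F} (hg : g ∈ discRing S P)
    (hh : h ∈ discRing S P) :
    Fermat.Agent.FF.valueAt S.hF Pt (g * h) =
      Fermat.Agent.FF.valueAt S.hF Pt g * Fermat.Agent.FF.valueAt S.hF Pt h :=
  Fermat.Agent.FF.valueAt_mul S.hF Pt (mem_valuationSubring_of_mem_discRing D.r_Pt hg)
    (mem_valuationSubring_of_mem_discRing D.r_Pt hh)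

theorem value_sub (D : DiscPoint S P Pt t) {g h : F} (hg : g ∈ discRing S P)
    (hh : h ∈ discRing S P) :
    Fermat.Agent.FF.valueAt S.hF Pt (g - h) =
      Fermat.Agent.FF.valueAt S.hF Pt g - Fermat.Agent.FF.valueAt S.hF Pt h :=
  Fermat.Agent.FF.valueAt_sub S.hF Pt (mem_valuationSubring_of_mem_discRing D.r_Pt hg)
    (mem_valuationSubring_of_mem_discRing D.r_Pt hh)

/-- `ev_smul` (no integrality of the constant needed). -/
theorem value_smul (D : DiscPoint S P Pt t) (a : K) {g : F} (hg : g ∈ discRing S P) :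
    Fermat.Agent.FF.valueAt S.hF Pt (algebraMap K F a * g) =
      a * Fermat.Agent.FF.valueAt S.hF Pt g := by
  rw [Fermat.Agent.FF.valueAt_mul S.hF Pt (Pt.algebraMap_mem' a)
    (mem_valuationSubring_of_mem_discRing D.r_Pt hg), Fermat.Agent.FF.valueAt_algebraMap]

theorem value_const (_D : DiscPoint S P Pt t) (a : K) :
    Fermat.Agent.FF.valueAt S.hF Pt (algebraMap K F a) = a :=
  Fermat.Agent.FF.valueAt_algebraMap S.hF Pt a

/-- `t (Pt) = 0`. -/
theorem value_t (D : DiscPoint S P Pt t) : Fermat.Agent.FF.valueAt S.hF Pt t = 0 :=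
  (Fermat.Agent.FF.valueAt_eq_zero_iff S.hF Pt
    (mem_valuationSubring_of_mem_discRing D.r_Pt D.t_mem)).mpr (Or.inr D.t_Pt)

/-- `sep`: a function of `R_P` divisible by every power of `t` vanishes. -/
theorem sep (D : DiscPoint S P Pt t) {g : F} (h : ∀ N : ℕ, g * (t ^ N)⁻¹ ∈ discRing S P) :
    g = 0 := by
  by_contra hg0
  have h1 := (h ((Pt.ord g).toNat + 1)).2 Pt D.r_Pt
  rw [Pt.ord_mul hg0 (inv_ne_zero (pow_ne_zero _ D.t_ne)), Place.ord_inv, dp_ord_pow,
    D.ord_t_eq_one, mul_one] at h1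
  have h2 := Int.self_le_toNat (Pt.ord g)
  push_cast at h1
  omega

end DiscPoint

/-! ### `F = Frac R_P` -/

/-- **clearing poles** (Riemann's inequality): for every function `f` and every place `Q₀` there
is `h ≠ 0` such that `h` and `f h` have no pole outside `Q₀`. -/
theorem exists_clear_poles (hF : IsRRField K F) (Q₀ : Place K F) (f : F) :
    ∃ h : F, h ≠ 0 ∧ ∀ x : Place K F, x ≠ Q₀ → 0 ≤ x.ord h ∧ 0 ≤ x.ord (f * h) := by
  classical
  obtain ⟨γ, hγ⟩ := exists_riemann_bound hF
  set E : Divisor K F := poleDiv hF f with hE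
  set n : ℕ := (Divisor.degree E + γ + 1).toNat with hn
  have hn' : Divisor.degree E + γ + 1 ≤ (n : ℤ) := Int.self_le_toNat _
  set D : Divisor K F := Finsupp.single Q₀ (n : ℤ) - E with hD
  have hdeg : Divisor.degree D = (n : ℤ) - Divisor.degree E := by
    rw [hD, map_sub, degree_single_one hF]
  have hpos : 0 < ell D := by
    have h1 := hγ D
    have : (0 : ℤ) < (ell D : ℤ) := by
      rw [hdeg] at h1
      linarith
    exact_mod_cast this
  rw [ell_def] at hpos
  have := finite_riemannRochSpace hF D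
  obtain ⟨⟨z, hz⟩, hz0⟩ := Module.finrank_pos_iff_exists_ne_zero.mp hpos
  have hz0' : z ≠ 0 := fun h0 => hz0 (Subtype.ext h0)
  have hzle := (mem_riemannRochSpace_iff_le hF hz0').mp hz
  refine ⟨z, hz0', fun x hx => ?_⟩
  have h1 := Finsupp.le_def.mp hzle x
  rw [Finsupp.neg_apply, divOf_apply, hD, Finsupp.sub_apply, Finsupp.single_apply,
    if_neg (Ne.symm hx), hE, poleDiv_apply] at h1
  have h2 := le_max_left (-(x.ord f)) 0
  have h3 := le_max_right (-(x.ord f)) 0
  refine ⟨by omega, ?_⟩
  rcases eq_or_ne f 0 with rfl | hf0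
  · rw [zero_mul, Place.ord_zero]
  · rw [x.ord_mul hf0 hz0']
    omega

/-- a function of `Ov` times the inverse of a constant: the orders do not change. -/
theorem ord_mul_const_inv (x : Place K F) (g : F) (c : K) (hc : c ≠ 0) :
    x.ord (g * (algebraMap K F c)⁻¹) = x.ord g := by
  rcases eq_or_ne g 0 with rfl | hg0
  · rw [zero_mul]
  have hcF : (algebraMap K F c)⁻¹ ≠ 0 := inv_ne_zero (by simpa using hc)
  rw [x.ord_mul hg0 hcF, Place.ord_inv, Fermat.Agent.S24Res.ord_algebraMap, neg_zero, add_zero]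

/-- `frac`: `F` is the fraction field of `R_P`, as soon as some place `Q₀` of `F` does not reduce
to `P`. -/
theorem discRing_frac (S : RedSetup K F k Fk) (P : Place k Fk) (Q₀ : Place K F)
    (hQ₀ : S.r Q₀ ≠ P) (f : F) : ∃ g ∈ discRing S P, g ≠ 0 ∧ f * g ∈ discRing S P := by
  rcases eq_or_ne f 0 with rfl | hf0
  · exact ⟨1, one_mem _, one_ne_zero, by rw [zero_mul]; exact zero_mem _⟩
  obtain ⟨h, hh0, hh⟩ := exists_clear_poles S.hF Q₀ f
  have hfh0 : f * h ≠ 0 := mul_ne_zero hf0 hh0
  obtain ⟨c₁, hc₁, hU₁⟩ := exists_scale (S := S) hh0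
  obtain ⟨c₂, hc₂, hU₂⟩ := exists_scale (S := S) hfh0
  have hne : ∀ x : Place K F, S.r x = P → x ≠ Q₀ := fun x hx hxQ => hQ₀ (hxQ ▸ hx)
  rw [div_eq_mul_inv] at hU₁ hU₂
  -- the better of the two constants
  rcases S.A.mem_or_inv_mem (c₂ * c₁⁻¹) with hA | hA
  · -- `c := c₁`
    refine ⟨h * (algebraMap K F c₁)⁻¹, ⟨hU₁.mem, fun x hx => ?_⟩, hU₁.ne_zero,
      ⟨?_, fun x hx => ?_⟩⟩
    · rw [ord_mul_const_inv x h c₁ hc₁]
      exact (hh x (hne x hx)).1
    · have : f * (h * (algebraMap K F c₁)⁻¹) =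
          algebraMap K F (c₂ * c₁⁻¹) * (f * h * (algebraMap K F c₂)⁻¹) := by
        rw [map_mul, map_inv₀]
        have : algebraMap K F c₂ ≠ 0 := by simpa using hc₂
        field_simp
      rw [this]
      exact mul_mem ((const_mem_iff _).mpr hA) hU₂.mem
    · rw [← mul_assoc, ord_mul_const_inv x (f * h) c₁ hc₁]
      exact (hh x (hne x hx)).2
  · -- `c := c₂`
    rw [mul_inv, inv_inv] at hA
    refine ⟨h * (algebraMap K F c₂)⁻¹, ⟨?_, fun x hx => ?_⟩, ?_, ⟨?_, fun x hx => ?_⟩⟩
    · have : h * (algebraMap K F c₂)⁻¹ =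
          algebraMap K F (c₂⁻¹ * c₁) * (h * (algebraMap K F c₁)⁻¹) := by
        rw [map_mul, map_inv₀]
        have : algebraMap K F c₁ ≠ 0 := by simpa using hc₁
        field_simp
      rw [this]
      exact mul_mem ((const_mem_iff _).mpr hA) hU₁.mem
    · rw [ord_mul_const_inv x h c₂ hc₂]
      exact (hh x (hne x hx)).1
    · exact mul_ne_zero hh0 (inv_ne_zero (by simpa using hc₂))
    · rw [← mul_assoc]
      exact hU₂.mem
    · rw [← mul_assoc, ord_mul_const_inv x (f * h) c₂ hc₂]
      exact (hh x (hne x hx)).2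

/-! ### (P): the points of the disc -/

/-- a function of `R_P` whose reduction has a simple zero at `P` has a zero on the disc. -/
theorem exists_discPoint {t : F} (ht : t ∈ discRing S P) (hord : P.ord (S.red t) = 1) :
    ∃ Pt : Place K F, DiscPoint S P Pt t := by
  classical
  have hred : S.red t ≠ 0 := by
    intro h
    rw [h, Place.ord_zero] at hord
    exact zero_ne_one hord
  have hU : S.IsU t := isU_of_red_ne_zero ht.1 hred
  have hpush := push_eq hU P
  rw [hord, mapDomain_apply_eq_sum] at hpush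
  have hex : ∃ x ∈ (divOf S.hF t).support, 0 < (if S.r x = P then divOf S.hF t x else 0) := by
    by_contra hno
    have hno' : ∀ x ∈ (divOf S.hF t).support,
        (if S.r x = P then divOf S.hF t x else 0) ≤ 0 := fun x hx =>
      not_lt.mp fun hlt => hno ⟨x, hx, hlt⟩
    have := Finset.sum_nonpos hno'
    omega
  obtain ⟨x, -, hx⟩ := hex
  by_cases hxP : S.r x = P
  · rw [if_pos hxP, divOf_apply] at hx
    exact ⟨x, ⟨hxP, ht, hx, hord⟩⟩
  · rw [if_neg hxP] at hx
    exact absurd hx (lt_irrefl _)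

namespace DiscPoint

variable {Pt : Place K F} {t : F}

/-- the parameter shifted by a constant of the maximal ideal of `A`. -/
theorem shift_mem (D : DiscPoint S P Pt t) {c : K} (hc : c ∈ S.A) :
    t - algebraMap K F c ∈ discRing S P :=
  sub_mem D.t_mem (const_mem_discRing hc)

theorem red_shift (D : DiscPoint S P Pt t) {c : K} (hc : c ∈ S.A) (hres : S.res ⟨c, hc⟩ = 0) :
    S.red (t - algebraMap K F c) = S.red t := by
  rw [red_sub D.t_mem.1 ((const_mem_iff c).mpr hc), red_const hc, hres, map_zero, sub_zero]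

/-- **(P)**: for `c ∈ m_A` the function `t - c` has a zero `x` on the disc and `(x, t - c)` is a
`DiscPoint`. -/
theorem shift (D : DiscPoint S P Pt t) {c : K} (hc : c ∈ S.A) (hres : S.res ⟨c, hc⟩ = 0) :
    ∃ x : Place K F, DiscPoint S P x (t - algebraMap K F c) :=
  exists_discPoint (D.shift_mem hc) (by rw [D.red_shift hc hres, D.ord_t])

/-- **(P)**: for `c ∈ m_A` the function `t - c` has exactly one zero on the disc; it is simple,
and the value of `t` there is `c`. -/
theorem exists_unique_zero (D : DiscPoint S P Pt t) {c : K} (hc : c ∈ S.A)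
    (hres : S.res ⟨c, hc⟩ = 0) :
    ∃ x : Place K F, S.r x = P ∧ x.ord (t - algebraMap K F c) = 1 ∧
      Fermat.Agent.FF.valueAt S.hF x t = c ∧
      ∀ y : Place K F, S.r y = P → 0 < y.ord (t - algebraMap K F c) → y = x := by
  obtain ⟨x, Dx⟩ := D.shift hc hres
  refine ⟨x, Dx.r_Pt, Dx.ord_t_eq_one, ?_, fun y hy hpos => ?_⟩
  · have h1 := Dx.value_t
    rw [Fermat.Agent.FF.valueAt_sub S.hF x
      (mem_valuationSubring_of_mem_discRing Dx.r_Pt D.t_mem) (x.algebraMap_mem' c),
      Fermat.Agent.FF.valueAt_algebraMap, sub_eq_zero] at h1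
    exact h1
  · by_contra hne
    have := Dx.ord_t_eq_zero hy hne
    omega

/-- the centre is determined by the parameter. -/
theorem centre_unique (D : DiscPoint S P Pt t) {Pt' : Place K F} (D' : DiscPoint S P Pt' t) :
    Pt' = Pt := by
  by_contra hne
  have := D.ord_t_eq_zero D'.r_Pt hne
  have := D'.t_Pt
  omega

end DiscPoint

end Fermat.Agent.HPVal
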