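/-
G wave (S36), W-P seat DISC-LAT (helper29): the LATTICE property of the disc valuation.

Abstract setting (no modular forms, Mathlib only).  `A` a valuation ring of `K`, `O` a valuation
ring of `F ⊇ K` with residue map `ρ : O → Fk`, `R ⊆ O` a subring ("functions without pole on the
residue disc"), `t ∈ R` a parameter, `π ∈ A` the radius, `ev : R → A` the value at the centre.
From the division lemma `div` (`(g - ev g) / t ∈ R`) we get finite Taylor expansions with
remainder, Taylor coefficient functionals, the norm formula and the lattice property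
(orthonormal bases of all finite dimensional `K`-subspaces of `F`), by pivot elimination on the
Taylor coefficients.
-/
import Mathlib
import Fermat.Agent.MUL.E.Desc.Kp.Ann

set_option autoImplicit false
set_option linter.unusedSectionVars false
set_option linter.unusedVariables false
set_option linter.style.longLine false

noncomputable section

namespace Fermat.Agent.HPVal

open Polynomial

variable {K F k Fk : Type*} [Field K] [Field F] [Algebra K F] [Field k] [Field Fk] [Algebra k Fk]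

/-- The input of DISC-LAT: a valuation ring `O` of `F` over `A`, with a subring `R ⊆ O` on which
there is a "value at the centre" `ev` and a division lemma for the parameter `t`; the residue of
`Y = t / π` is transcendental. -/
structure DiscLatData (A : ValuationSubring K) (O : ValuationSubring F) (res : A →+* k)
    (ρ : O →+* Fk) (R : Subring F) (t : F) (π : K) (ev : F → K) : Prop where
  mem_O_iff : ∀ c : K, algebraMap K F c ∈ O ↔ c ∈ A
  ρ_algebraMap : ∀ (c : K) (hc : c ∈ A) (hc' : algebraMap K F c ∈ O),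
    ρ ⟨algebraMap K F c, hc'⟩ = algebraMap k Fk (res ⟨c, hc⟩)
  ρ_eq_zero_iff : ∀ f : O, ρ f = 0 ↔ ¬ IsUnit f
  R_le : ∀ g ∈ R, g ∈ O
  A_le : ∀ a ∈ A, algebraMap K F a ∈ R
  t_mem : t ∈ R
  t_ne : t ≠ 0
  π_ne : π ≠ 0
  π_mem : π ∈ A
  Y_mem : t * (algebraMap K F π)⁻¹ ∈ O
  ev_mem : ∀ g ∈ R, ev g ∈ A
  ev_add : ∀ g ∈ R, ∀ h ∈ R, ev (g + h) = ev g + ev h
  ev_smul : ∀ a ∈ A, ∀ g ∈ R, ev (algebraMap K F a * g) = a * ev g
  div : ∀ g ∈ R, (g - algebraMap K F (ev g)) * t⁻¹ ∈ R
  sep : ∀ g ∈ R, (∀ N : ℕ, g * (t ^ N)⁻¹ ∈ R) → g = 0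
  tr : ∀ p : Polynomial k,
    Polynomial.aeval (ρ ⟨t * (algebraMap K F π)⁻¹, Y_mem⟩) p = 0 → p = 0
  arch : ∀ c : K, c ≠ 0 → ∃ N : ℕ, A.valuation (π ^ N) < A.valuation c
  frac : ∀ f : F, ∃ g ∈ R, g ≠ 0 ∧ f * g ∈ R

/-- the division operator `g ↦ (g - ev g) / t`. -/
def dlD (t : F) (ev : F → K) (g : F) : F := (g - algebraMap K F (ev g)) * t⁻¹

/-- the `n`-th Taylor coefficient of `g`. -/
def dlCoef (t : F) (ev : F → K) (n : ℕ) (g : F) : K := ev ((dlD t ev)^[n] g)

open Classical in
/-- the residue map of `A` as a total function. -/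
def dlRes (A : ValuationSubring K) (res : A →+* k) (c : K) : k :=
  if h : c ∈ A then res ⟨c, h⟩ else 0

open Classical in
/-- the residue map of `O` as a total function (same shape as `Deuring.ValSetup.red`). -/
def dlRed (O : ValuationSubring F) (ρ : O →+* Fk) (f : F) : Fk :=
  if h : f ∈ O then ρ ⟨f, h⟩ else 0

theorem dlRes_of_mem (A : ValuationSubring K) (res : A →+* k) {c : K} (h : c ∈ A) :
    dlRes A res c = res ⟨c, h⟩ := by
  unfold dlRes
  rw [dif_pos h]

theorem dlRed_of_mem (O : ValuationSubring F) (ρ : O →+* Fk) {f : F} (h : f ∈ O) :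
    dlRed O ρ f = ρ ⟨f, h⟩ := by
  unfold dlRed
  rw [dif_pos h]

namespace DiscLatData

variable {A : ValuationSubring K} {O : ValuationSubring F} {res : A →+* k} {ρ : O →+* Fk}
  {R : Subring F} {t : F} {π : K} {ev : F → K}

section Taylor

variable (D : DiscLatData A O res ρ R t π ev)
include D

theorem dlD_mem {g : F} (hg : g ∈ R) : dlD t ev g ∈ R := D.div g hg

theorem iter_mem {g : F} (hg : g ∈ R) (n : ℕ) : (dlD t ev)^[n] g ∈ R := by
  induction n with
  | zero => simpa using hg
  | succ n ih =>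
    rw [Function.iterate_succ_apply']
    exact D.dlD_mem ih

theorem coef_mem {g : F} (hg : g ∈ R) (n : ℕ) : dlCoef t ev n g ∈ A :=
  D.ev_mem _ (D.iter_mem hg n)

theorem smul_mem_R {a : K} (ha : a ∈ A) {g : F} (hg : g ∈ R) : algebraMap K F a * g ∈ R :=
  R.mul_mem (D.A_le a ha) hg

theorem dlD_add {g h : F} (hg : g ∈ R) (hh : h ∈ R) :
    dlD t ev (g + h) = dlD t ev g + dlD t ev h := by
  unfold dlD
  rw [D.ev_add g hg h hh, map_add]
  ring

theorem dlD_smul {a : K} (ha : a ∈ A) {g : F} (hg : g ∈ R) :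
    dlD t ev (algebraMap K F a * g) = algebraMap K F a * dlD t ev g := by
  unfold dlD
  rw [D.ev_smul a ha g hg, map_mul]
  ring

theorem iter_add {g h : F} (hg : g ∈ R) (hh : h ∈ R) (n : ℕ) :
    (dlD t ev)^[n] (g + h) = (dlD t ev)^[n] g + (dlD t ev)^[n] h := by
  induction n with
  | zero => simp
  | succ n ih =>
    rw [Function.iterate_succ_apply', Function.iterate_succ_apply',
      Function.iterate_succ_apply', ih, D.dlD_add (D.iter_mem hg n) (D.iter_mem hh n)]

theorem iter_smul {a : K} (ha : a ∈ A) {g : F} (hg : g ∈ R) (n : ℕ) :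
    (dlD t ev)^[n] (algebraMap K F a * g) = algebraMap K F a * (dlD t ev)^[n] g := by
  induction n with
  | zero => simp
  | succ n ih =>
    rw [Function.iterate_succ_apply', Function.iterate_succ_apply', ih,
      D.dlD_smul ha (D.iter_mem hg n)]

theorem coef_add {g h : F} (hg : g ∈ R) (hh : h ∈ R) (n : ℕ) :
    dlCoef t ev n (g + h) = dlCoef t ev n g + dlCoef t ev n h := by
  unfold dlCoef
  rw [D.iter_add hg hh n, D.ev_add _ (D.iter_mem hg n) _ (D.iter_mem hh n)]

theorem coef_smul {a : K} (ha : a ∈ A) {g : F} (hg : g ∈ R) (n : ℕ) :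
    dlCoef t ev n (algebraMap K F a * g) = a * dlCoef t ev n g := by
  unfold dlCoef
  rw [D.iter_smul ha hg n, D.ev_smul a ha _ (D.iter_mem hg n)]

theorem coef_zero (n : ℕ) : dlCoef t ev n 0 = 0 := by
  have h := D.coef_smul (a := 0) A.zero_mem R.zero_mem n
  simpa using h

/-- one step of the Taylor expansion. -/
theorem eq_ev_add {g : F} (hg : g ∈ R) :
    g = algebraMap K F (ev g) + t * dlD t ev g := by
  unfold dlD
  field_simp [D.t_ne]
  ring

/-- **finite Taylor expansion with remainder**. -/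
theorem taylor {g : F} (hg : g ∈ R) (N : ℕ) :
    g = ∑ n ∈ Finset.range N, algebraMap K F (dlCoef t ev n g) * t ^ n +
      t ^ N * (dlD t ev)^[N] g := by
  induction N with
  | zero => simp
  | succ N ih =>
    rw [Finset.sum_range_succ, Function.iterate_succ_apply']
    have h1 := D.eq_ev_add (D.iter_mem hg N)
    have h2 : dlCoef t ev N g = ev ((dlD t ev)^[N] g) := rfl
    rw [h2]
    calc g = ∑ n ∈ Finset.range N, algebraMap K F (dlCoef t ev n g) * t ^ n +
          t ^ N * (dlD t ev)^[N] g := ih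
      _ = ∑ n ∈ Finset.range N, algebraMap K F (dlCoef t ev n g) * t ^ n +
          t ^ N * (algebraMap K F (ev ((dlD t ev)^[N] g)) +
            t * dlD t ev ((dlD t ev)^[N] g)) := by rw [← h1]
      _ = _ := by ring

/-- a non-zero element of `R` has a non-zero Taylor coefficient. -/
theorem exists_coef_ne {g : F} (hg : g ∈ R) (hg0 : g ≠ 0) : ∃ n, dlCoef t ev n g ≠ 0 := by
  by_contra hcon
  simp only [not_exists, not_not] at hcon
  apply hg0
  apply D.sep g hg
  intro N
  have h := D.taylor hg N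
  have hsum : ∑ n ∈ Finset.range N, algebraMap K F (dlCoef t ev n g) * t ^ n = 0 := by
    apply Finset.sum_eq_zero
    intro n _
    rw [hcon n, map_zero, zero_mul]
  rw [hsum, zero_add] at h
  have htN : t ^ N ≠ 0 := pow_ne_zero _ D.t_ne
  have h' : g * (t ^ N)⁻¹ = (t ^ N * (dlD t ev)^[N] g) * (t ^ N)⁻¹ := by rw [← h]
  have : g * (t ^ N)⁻¹ = (dlD t ev)^[N] g := by
    rw [h']
    field_simp
  rw [this]
  exact D.iter_mem hg N

end Taylor


section Val

variable (D : DiscLatData A O res ρ R t π ev)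
include D

theorem val_pi_lt_one : A.valuation π < 1 := by
  obtain ⟨N, hN⟩ := D.arch 1 one_ne_zero
  rw [map_one, map_pow] at hN
  have hle : A.valuation π ≤ 1 := (ValuationSubring.valuation_le_one_iff A π).mpr D.π_mem
  rcases lt_or_eq_of_le hle with h | h
  · exact h
  · rw [h, one_pow] at hN
    exact absurd hN (lt_irrefl _)

theorem val_pi_pow_le {N n : ℕ} (h : N ≤ n) : A.valuation (π ^ n) ≤ A.valuation (π ^ N) := by
  obtain ⟨m, rfl⟩ := Nat.exists_eq_add_of_le h
  rw [pow_add, map_mul]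
  have h1 : A.valuation (π ^ m) ≤ 1 :=
    (ValuationSubring.valuation_le_one_iff A _).mpr (A.pow_mem D.π_mem m)
  exact mul_le_of_le_one_right' h1

theorem val_coef_mul_le {g : F} (hg : g ∈ R) (n : ℕ) :
    A.valuation (dlCoef t ev n g * π ^ n) ≤ A.valuation (π ^ n) := by
  rw [map_mul]
  have h1 : A.valuation (dlCoef t ev n g) ≤ 1 :=
    (ValuationSubring.valuation_le_one_iff A _).mpr (D.coef_mem hg n)
  exact mul_le_of_le_one_left' h1

/-- **pivot**: the maximum of `|a_n π^n|` is attained. -/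
theorem exists_pivot {g : F} (hg : g ∈ R) (hg0 : g ≠ 0) :
    ∃ n₁, dlCoef t ev n₁ g * π ^ n₁ ≠ 0 ∧
      ∀ n, A.valuation (dlCoef t ev n g * π ^ n) ≤ A.valuation (dlCoef t ev n₁ g * π ^ n₁) := by
  obtain ⟨n₀, hn₀⟩ := D.exists_coef_ne hg hg0
  have hc₀ : dlCoef t ev n₀ g * π ^ n₀ ≠ 0 := mul_ne_zero hn₀ (pow_ne_zero _ D.π_ne)
  obtain ⟨N, hN⟩ := D.arch _ hc₀
  have hne : (Finset.range (max N (n₀ + 1))).Nonempty :=
    ⟨n₀, Finset.mem_range.mpr (lt_of_lt_of_le (Nat.lt_succ_self n₀) (le_max_right _ _))⟩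
  obtain ⟨n₁, hn₁, hmax⟩ := Finset.exists_max_image (Finset.range (max N (n₀ + 1)))
    (fun n => A.valuation (dlCoef t ev n g * π ^ n)) hne
  have hn₀mem : n₀ ∈ Finset.range (max N (n₀ + 1)) :=
    Finset.mem_range.mpr (lt_of_lt_of_le (Nat.lt_succ_self n₀) (le_max_right _ _))
  have h01 : A.valuation (dlCoef t ev n₀ g * π ^ n₀) ≤ A.valuation (dlCoef t ev n₁ g * π ^ n₁) :=
    hmax n₀ hn₀mem
  refine ⟨n₁, ?_, ?_⟩
  · intro h0
    rw [h0, map_zero] at h01
    have : A.valuation (dlCoef t ev n₀ g * π ^ n₀) = 0 := le_antisymm h01 zero_le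
    exact hc₀ ((Valuation.zero_iff _).mp this)
  · intro n
    by_cases hn : n ∈ Finset.range (max N (n₀ + 1))
    · exact hmax n hn
    · have hNn : N ≤ n := by
        rw [Finset.mem_range, not_lt] at hn
        exact le_trans (le_max_left _ _) hn
      calc A.valuation (dlCoef t ev n g * π ^ n) ≤ A.valuation (π ^ n) := D.val_coef_mul_le hg n
        _ ≤ A.valuation (π ^ N) := D.val_pi_pow_le hNn
        _ ≤ A.valuation (dlCoef t ev n₀ g * π ^ n₀) := le_of_lt hN
        _ ≤ _ := h01

theorem inv_mul_mem_of_le {c x : K} (hc : c ≠ 0) (h : A.valuation x ≤ A.valuation c) :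
    c⁻¹ * x ∈ A := by
  rw [← ValuationSubring.valuation_le_one_iff, map_mul, map_inv₀]
  have hv0 : A.valuation c ≠ 0 := (Valuation.ne_zero_iff _).mpr hc
  rw [inv_mul_le_iff₀ (zero_lt_iff.mpr hv0), mul_one]
  exact h

end Val

end DiscLatData

end Fermat.Agent.HPVal
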